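import Mathlib
import Fermat.Agent.LT.T2.H291.OpsSpecT

/-!
# Row LT, tower T2, sub-leaf T2.27.03 `SubHeckeBddT291` (helper290)

OFF-MAIN.  `‖T_H φ‖² ≤ (#H)² ‖φ‖²` on the cusp functions of the class `(𝔫, τ, r)`, from the KEY
LEMMA in `T`-form `SubTranslT291` (T2.27.00): Cauchy--Schwarz pointwise, then
`∫_D |φ(g h)|² = ∫_D |φ(g)|²` for every `h` (`|φ|²` is left `GL₂(K)`-invariant and right invariant
under the ray generator `r`, both fields of `IsAutT`).  For a Hecke coset system `#H = q_v + 1`.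
Neither the type `τ` nor the hypotheses `CtxT291` other than `t1` are used.

`T`-form of `subHeckeBdd_of_transl91` (helper91, T2.07.03).

Frozen bytes: `LT/T2/H291/OpsSpecT.lean` (helper291@22c6ecc98, sha256 c8359c85).
-/

set_option autoImplicit false

open IsDedekindDomain NumberField MeasureTheory
open Fermat.Agent.LT.H556.A0
open Fermat.Agent.LT.T2
open Fermat.Agent.LT.T2.H291

noncomputable section

namespace Fermat.Agent.LT.T2.H290

variable {K : Type} [Field K] [NumberField K]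

attribute [local instance] Fermat.Agent.LT.T2.borelG

/-- The square of the `L²`-norm is the integral of `‖ψ‖²` (no integrability hypothesis). -/
theorem nsq_eq_integral290 (F : Frame K) (ψ : G K → ℂ) :
    nsq F ψ = ∫ g in F.D, ‖ψ g‖ ^ 2 ∂F.μ := by
  unfold nsq pair
  have h : (fun g => ψ g * (starRingEnd ℂ) (ψ g)) = fun g => (((‖ψ g‖ ^ 2 : ℝ)) : ℂ) := by
    funext g
    rw [Complex.mul_conj, Complex.normSq_eq_norm_sq]
  rw [h, integral_complex_ofReal, Complex.ofReal_re]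

/-- `g ↦ ‖φ(g h)‖²` is integrable on the domain of the frame, for `φ` continuous and bounded. -/
theorem integrable_sq_transl290 (F : Frame K) {φ : G K → ℂ} (hc : Continuous φ)
    {B : ℝ} (hB : ∀ g : G K, ‖φ g‖ ≤ B) (h : G K) :
    Integrable (fun g => ‖φ (g * h)‖ ^ 2) (F.μ.restrict F.D) := by
  have : BorelSpace (G K) := ⟨rfl⟩
  have : IsFiniteMeasure (F.μ.restrict F.D) := ⟨by rw [Measure.restrict_apply_univ]; exact F.fin⟩
  have hcont : Continuous fun g : G K => ‖φ (g * h)‖ ^ 2 :=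
    ((hc.comp (continuous_mul_const h)).norm).pow 2
  refine Integrable.of_bound hcont.aestronglyMeasurable (B ^ 2) ?_
  refine Filter.Eventually.of_forall fun g => ?_
  rw [Real.norm_of_nonneg (by positivity)]
  exact pow_le_pow_left₀ (norm_nonneg _) (hB _) 2

/-- The translation invariance of `∫_D ‖φ‖²` for a function `φ` which is continuous, left
`GL₂(K)`-invariant and right invariant under the ray generator, from the KEY LEMMA in `T`-form. -/
theorem integral_sq_transl290 (hT : SubTranslT291 K) (ht1 : T1.T1Out K) (R : FrameR K)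
    {φ : G K → ℂ}
    (hleft : ∀ (γ : GL (Fin 2) K) (g : G K), φ (T1.ratG K γ * g) = φ g)
    (hray : ∀ g : G K, φ (g * R.r) = φ g) (h : G K) :
    ∫ g in R.F.D, ‖φ (g * h)‖ ^ 2 ∂(R.F.μ) = ∫ g in R.F.D, ‖φ g‖ ^ 2 ∂(R.F.μ) := by
  have key := hT ht1 R (fun g => (((‖φ g‖ ^ 2 : ℝ)) : ℂ))
    (fun γ g => by rw [hleft γ g]) (fun g => by rw [hray g]) h
  have key' : ((∫ g in R.F.D, ‖φ (g * h)‖ ^ 2 ∂(R.F.μ) : ℝ) : ℂ)
      = ((∫ g in R.F.D, ‖φ g‖ ^ 2 ∂(R.F.μ) : ℝ) : ℂ) := by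
    rw [← integral_complex_ofReal, ← integral_complex_ofReal]
    exact key
  exact_mod_cast key'

/-- The bound with the explicit constant: `‖T_H φ‖² ≤ (#H)² ‖φ‖²` for every finite set `H` and
every bounded continuous `φ`, left `GL₂(K)`-invariant and right invariant under the ray
generator. -/
theorem nsq_heckeSum_le290 (hT : SubTranslT291 K) (ht1 : T1.T1Out K) (R : FrameR K)
    (H : Finset (G K)) {φ : G K → ℂ} (hc : Continuous φ) (hb : ∃ C : ℝ, ∀ g : G K, ‖φ g‖ ≤ C)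
    (hleft : ∀ (γ : GL (Fin 2) K) (g : G K), φ (T1.ratG K γ * g) = φ g)
    (hray : ∀ g : G K, φ (g * R.r) = φ g) :
    nsq R.F (heckeSum H φ) ≤ (H.card : ℝ) ^ 2 * nsq R.F φ := by
  have : BorelSpace (G K) := ⟨rfl⟩
  obtain ⟨B, hB⟩ := hb
  have htr := integral_sq_transl290 hT ht1 R hleft hray
  rw [nsq_eq_integral290, nsq_eq_integral290]
  -- Cauchy--Schwarz, pointwise
  have hpt : ∀ g : G K,
      ‖heckeSum H φ g‖ ^ 2 ≤ (H.card : ℝ) * ∑ h ∈ H, ‖φ (g * h)‖ ^ 2 := by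
    intro g
    unfold heckeSum
    calc ‖∑ h ∈ H, φ (g * h)‖ ^ 2 ≤ (∑ h ∈ H, ‖φ (g * h)‖) ^ 2 :=
          pow_le_pow_left₀ (norm_nonneg _) (norm_sum_le _ _) 2
      _ ≤ (H.card : ℝ) * ∑ h ∈ H, ‖φ (g * h)‖ ^ 2 := sq_sum_le_card_mul_sum_sq
  have hint : ∀ h : G K, Integrable (fun g => ‖φ (g * h)‖ ^ 2) (R.F.μ.restrict R.F.D) :=
    fun h => integrable_sq_transl290 R.F hc hB h
  calc ∫ g in R.F.D, ‖heckeSum H φ g‖ ^ 2 ∂(R.F.μ)
      ≤ ∫ g in R.F.D, (H.card : ℝ) * ∑ h ∈ H, ‖φ (g * h)‖ ^ 2 ∂(R.F.μ) := by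
        apply integral_mono_of_nonneg
        · exact Filter.Eventually.of_forall (fun g => by positivity)
        · exact (integrable_finsetSum _ (fun h _ => hint h)).const_mul _
        · exact Filter.Eventually.of_forall hpt
    _ = (H.card : ℝ) * ∑ h ∈ H, ∫ g in R.F.D, ‖φ (g * h)‖ ^ 2 ∂(R.F.μ) := by
        rw [integral_const_mul, integral_finsetSum _ (fun h _ => hint h)]
    _ = (H.card : ℝ) * ∑ _h ∈ H, ∫ g in R.F.D, ‖φ g‖ ^ 2 ∂(R.F.μ) := by
        simp only [htr]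
    _ = (H.card : ℝ) ^ 2 * ∫ g in R.F.D, ‖φ g‖ ^ 2 ∂(R.F.μ) := by
        rw [Finset.sum_const, nsmul_eq_mul]
        ring

/-- **T2.27.03** from the KEY LEMMA T2.27.00 (`T`-form), with `C = (#H)²`. -/
theorem subHeckeBddT_of_transl290 (hT : SubTranslT291 K) : SubHeckeBddT291 K := by
  intro 𝔫 τ c R v _ H _
  exact ⟨(H.card : ℝ) ^ 2, fun φ hφ =>
    nsq_heckeSum_le290 hT c.t1 R H hφ.aut.cont hφ.aut.bdd hφ.aut.left_inv hφ.aut.ray⟩

/-- The same for every finite set `H` (the bound does not use that `H` is a Hecke coset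
system). -/
theorem bddT_heckeSum_of_transl290 (hT : SubTranslT291 K) (ht1 : T1.T1Out K)
    (𝔫 : Ideal (𝓞 K)) (τ : G K → ℂ) (R : FrameR K) (H : Finset (G K)) :
    BddT291 𝔫 τ R (heckeSum H) :=
  ⟨(H.card : ℝ) ^ 2, fun φ hφ =>
    nsq_heckeSum_le290 hT ht1 R H hφ.aut.cont hφ.aut.bdd hφ.aut.left_inv hφ.aut.ray⟩

end Fermat.Agent.LT.T2.H290

end
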